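/-
Row 37 (S43), block E0, sub-block SLOPE (helper21): auxiliary translation lemmas
(public copies of the private lemmas of `S44/Depth/Inst/TR/Main.lean`, helper288).
-/
import Fermat.Agent.S44.Depth.Inst.MDDefs
import Fermat.Agent.S44.X.Red.API

set_option autoImplicit false

noncomputable section

namespace Fermat.Agent.S43.E0.Slope

open ModularCurve AlgebraicCurve Fermat.Agent.S24 Fermat.Agent.GAL Fermat.Agent.S44.X
  Fermat.Agent.Lib.InertiaField Fermat.Agent.S18.Descent Fermat.Agent.BAD.Bridge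
  Fermat.Agent.S28.Export Fermat.Agent.S36.BP Fermat.Agent.BAD.LevelQ.Mod
  Fermat.Agent.S44.Depth.Inst Fermat.Agent.S44 Fermat.Agent.S44.Depth
open Fermat.Agent.S18 (IsUnif)

/-- nonzero constants have order zero. -/
theorem ord_const {K F : Type*} [Field K] [Field F] [Algebra K F] (w : Place K F)
    {a : K} (ha : a ≠ 0) : w.ord (algebraMap K F a) = 0 := by
  have h1 : (algebraMap K w.toValuationSubring a) * (algebraMap K w.toValuationSubring a⁻¹) = 1 := by
    rw [← map_mul, mul_inv_cancel₀ ha, map_one]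
  have h2 := w.ord_coe_unit (Units.mkOfMulEqOne _ _ h1)
  simpa using h2

variable {A : ValuationSubring S44.Qb}

theorem red_zpow {f : LaurentSeries S44.Qb} {g : LaurentSeries (kA A)}
    (h : Red A f g) (hg : g ≠ 0) (n : ℤ) : Red A (f ^ n) (g ^ n) := by
  obtain ⟨m, rfl | rfl⟩ := n.eq_nat_or_neg
  · rw [zpow_natCast, zpow_natCast]
    exact h.pow m
  · rw [zpow_neg, zpow_neg, zpow_natCast, zpow_natCast]
    exact (h.pow m).inv (pow_ne_zero _ hg)

section Gauss

variable {K : Type*} [Field K] [Algebra ℚ K] [Algebra K S44.Qb] {N : ℕ}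
  {V : ValuationSubring (FK K N)}

theorem gauss_unit (hV : IsGauss A V) {f : FK K N} (hf : V.valuation f = 1) :
    ∃ g, g ≠ 0 ∧ Red A ((bcK K N f : FN N) : LaurentSeries S44.Qb) g := by
  have hf0 : f ≠ 0 := by
    rintro rfl
    simp at hf
  have h1 : f ∈ V := (V.valuation_le_one_iff f).1 hf.le
  have h2 : f⁻¹ ∈ V := (V.valuation_le_one_iff _).1 (by rw [map_inv₀, hf, inv_one])
  obtain ⟨g, hg⟩ := (hV f).1 h1
  obtain ⟨g', hg'⟩ := (hV f⁻¹).1 h2
  refine ⟨g, ?_, hg⟩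
  rintro rfl
  have h3 := hg.mul hg'
  have e : ((bcK K N f : FN N) : LaurentSeries S44.Qb) *
      ((bcK K N f⁻¹ : FN N) : LaurentSeries S44.Qb) = 1 := by
    rw [← MulMemClass.coe_mul, ← map_mul, mul_inv_cancel₀ hf0, map_one]
    rfl
  rw [e, zero_mul] at h3
  exact one_ne_zero (red_one.unique h3)

end Gauss

section InFk

variable {p : ℕ} [NeZero p] {M : ℕ} [NeZero M]

omit [NeZero M] in
theorem coe_const (a : kA A) :
    ((algebraMap (kA A) (Fk A M) a : Fk A M) : LaurentSeries (kA A)) = HahnSeries.C a := by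
  show algebraMap (kA A) (LaurentSeries (kA A)) a = HahnSeries.C a
  rw [algebraMap_laurentSeries_eq_single]
  rfl

/-- a nonzero Gauss reduction of a function of level `M p` lies in `Fk A M`. -/
theorem mem_Fk (hR : NodeRed) (hp : p.Prime) (hpM : ¬ p ∣ M) (hA : A.LiesOverPrime p)
    {y : FN (M * p)} {g : LaurentSeries (kA A)} (hg : g ≠ 0)
    (h : Red A (y : LaurentSeries S44.Qb) g) : ∃ gb : Fk A M, (gb : LaurentSeries (kA A)) = g := by
  have hy0 : y ≠ 0 := by
    rintro rfl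
    exact h.ne_zero hg rfl
  obtain ⟨yb, hyb⟩ := hR p M hp hpM A hA y hy0
  have h1 : IsRed A y g := isRed_of_red hp hA hg one_ne_zero (by rwa [one_smul])
  obtain ⟨a, _, e⟩ := hyb.unique h1
  refine ⟨algebraMap (kA A) (Fk A M) a * yb, ?_⟩
  rw [e, MulMemClass.coe_mul, coe_const]

variable {K : Type*} [Field K] [Algebra ℚ K] [Algebra K S44.Qb]
  {V : ValuationSubring (FK K (M * p))}

theorem unit_Fk (hR : NodeRed) (hp : p.Prime) (hpM : ¬ p ∣ M) (hA : A.LiesOverPrime p)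
    (hV : IsGauss A V) {f : FK K (M * p)} (hf : V.valuation f = 1) :
    ∃ fb : Fk A M, fb ≠ 0 ∧
      Red A ((bcK K (M * p) f : FN (M * p)) : LaurentSeries S44.Qb)
        (fb : LaurentSeries (kA A)) := by
  obtain ⟨g, hg0, hg⟩ := gauss_unit hV hf
  obtain ⟨fb, rfl⟩ := mem_Fk hR hp hpM hA hg0 hg
  refine ⟨fb, ?_, hg⟩
  rintro rfl
  exact hg0 rfl

/-- the reduction of a unit of `R₀` is a unit at `w`. -/
theorem runit_Fk (hR : NodeRed) (hp : p.Prime) (hpM : ¬ p ∣ M) (hA : A.LiesOverPrime p)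
    {Vi₀ : ValuationSubring (FK (K0 A) (M * p))} (hVi₀ : IsGauss A Vi₀)
    {w : Place (kA A) (Fk A M)} {R₀ : Subring (FK (K0 A) (M * p))}
    (hw : Centred A M p w R₀) (hle : ∀ r ∈ R₀, r ∈ Vi₀) {r₀ : FK (K0 A) (M * p)}
    (h : RUnit R₀ r₀) :
    ∃ rb : Fk A M, rb ≠ 0 ∧
      Red A ((bcK (K0 A) (M * p) r₀ : FN (M * p)) : LaurentSeries S44.Qb)
        (rb : LaurentSeries (kA A)) ∧ w.ord rb = 0 := by
  obtain ⟨h0, h1, h2⟩ := h
  have hv1 := (Vi₀.valuation_le_one_iff _).2 (hle _ h1)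
  have hv2 := (Vi₀.valuation_le_one_iff _).2 (hle _ h2)
  rw [map_inv₀, inv_le_one₀ (zero_lt_iff.2 ((map_ne_zero _).2 h0))] at hv2
  obtain ⟨rb, hrb0, hrb⟩ := unit_Fk hR hp hpM hA hVi₀ (le_antisymm hv1 hv2)
  refine ⟨rb, hrb0, hrb, ?_⟩
  have h3 := hw r₀ h1 rb hrb
  have h4 : 0 ≤ w.ord rb⁻¹ := by
    apply hw r₀⁻¹ h2 rb⁻¹
    rw [map_inv₀]
    exact hrb.inv (fun h => hrb0 (Subtype.ext h))
  rw [w.ord_inv] at h4
  omega

end InFk

theorem bcK_const (N : ℕ) (κ : K0 A) :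
    bcK (K0 A) N (algebraMap (K0 A) (FK (K0 A) N) κ) = algebraMap S44.Qb (FN N) (κ : S44.Qb) :=
  baseChangeMap_algebraMap _ κ

theorem coe_constQ (N : ℕ) (c : S44.Qb) (y : FN N) :
    ((algebraMap S44.Qb (FN N) c * y : FN N) : LaurentSeries S44.Qb) =
      c • (y : LaurentSeries S44.Qb) := by
  rw [smul_eq_C_mul]
  show algebraMap S44.Qb (LaurentSeries S44.Qb) c * (y : LaurentSeries S44.Qb) = _
  rw [algebraMap_laurentSeries_eq_single]
  rfl

/-- two reductions of the same function have the same order. -/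
theorem ord_eq_of_isRed {M N : ℕ} {y : FN N} {a b : Fk A M}
    (ha : IsRed A y (a : LaurentSeries (kA A))) (hb : IsRed A y (b : LaurentSeries (kA A)))
    (w : Place (kA A) (Fk A M)) : w.ord a = w.ord b := by
  obtain ⟨c, hc, e⟩ := ha.unique hb
  have e' : b = algebraMap (kA A) (Fk A M) c * a := by
    apply Subtype.ext
    rw [e, MulMemClass.coe_mul, coe_const]
  have ha0 : a ≠ 0 := by
    rintro rfl
    exact ha.ne_zero rfl
  rw [e', w.ord_mul ((map_ne_zero _).2 hc) ha0, ord_const w hc, zero_add]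

end Fermat.Agent.S43.E0.Slope

end
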