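/-
Row 37 (S43), block E0, sub-block SLOPE (helper21): **the slope formula** at level `M' * 4 * q` over
the inertia field `K0 A` (`A ∣ q`), for an arbitrary exponent `n ≠ 0`.

If the horizontal divisor of `u` is divisible by `n`, then the divisor of the reduction `ubar` of `u`
on the component `C_∞` is `≡ (v_0(u) - v_∞(u)) · div(xbar)` modulo `n` away from the cusps, and
`≡ 0` at the cusps (`xbar` = the reduction of the eta unit `xU`, whose divisor away from the cusps is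
the supersingular divisor).
-/
import Fermat.Agent.S43.E0.Slope.Trans
import Fermat.Agent.S44.Depth.Inst.MD.Final
import Fermat.Agent.S44.Depth.Abs.Slope
import Fermat.Agent.S44.X.Red.Main

set_option autoImplicit false
set_option linter.unusedSectionVars false

noncomputable section

namespace Fermat.Agent.S43.E0.Slope

open ModularCurve AlgebraicCurve Fermat.Agent.S24 Fermat.Agent.S18 Fermat.Agent.S36.Mod
  Fermat.Agent.BAD.LevelQ Fermat.Agent.BAD.LevelQ.Mod Fermat.Agent.Lib.EtaUnit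
  Fermat.Agent.Lib.InertiaField Fermat.Agent.S36.BP Fermat.Agent.S44.X Fermat.Agent.S44.X.Model
  Fermat.Agent.S28.Export Fermat.Agent.S44.Depth.Inst Fermat.Agent.S44 Fermat.Agent.S44.Depth

variable {A : ValuationSubring S44.Qb}

section Core

variable {q : ℕ} [NeZero q] {M : ℕ} [NeZero M]

/-- the order of the reduction of `u = κ x₀ ^ b G ^ n · (unit of R₀)` at a place centred at `R₀`. -/
theorem ord_of_shape (hR : NodeRed) (hq : q.Prime) (hqM : ¬ q ∣ M) (hA : A.LiesOverPrime q)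
    {Vi₀ : ValuationSubring (FK (K0 A) (M * q))} (hVi₀ : IsGauss A Vi₀)
    {x₀ : FK (K0 A) (M * q)} (hx₀ : Vi₀.valuation x₀ = 1) {xbar : Fk A M}
    (hxb : IsRed A (bcK (K0 A) (M * q) x₀) (xbar : LaurentSeries (kA A)))
    {u : FK (K0 A) (M * q)} {ubar : Fk A M}
    (hub : IsRed A (bcK (K0 A) (M * q) u) (ubar : LaurentSeries (kA A)))
    {w : Place (kA A) (Fk A M)} {R₀ : Subring (FK (K0 A) (M * q))}
    (hw : Centred A M q w R₀) (hle : ∀ r ∈ R₀, r ∈ Vi₀) {n : ℕ} {b : ℤ} {κ : K0 A}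
    {G : FK (K0 A) (M * q)} (hκ : κ ≠ 0) (hG : Vi₀.valuation G = 1)
    (hr : RUnit R₀ (u / (algebraMap (K0 A) (FK (K0 A) (M * q)) κ * x₀ ^ b * G ^ n))) :
    (n : ℤ) ∣ w.ord ubar - b * w.ord xbar := by
  obtain ⟨Xb, hXb0, hXb⟩ := unit_Fk hR hq hqM hA hVi₀ hx₀
  obtain ⟨Gb, hGb0, hGb⟩ := unit_Fk hR hq hqM hA hVi₀ hG
  obtain ⟨rb, hrb0, hrb, hrbw⟩ := runit_Fk hR hq hqM hA hVi₀ hw hle hr
  have hXb0' : (Xb : LaurentSeries (kA A)) ≠ 0 := fun h => hXb0 (Subtype.ext h)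
  have hx0 : x₀ ≠ 0 := ne_zero_of_valuation_eq_one hx₀
  have hG0 : G ≠ 0 := ne_zero_of_valuation_eq_one hG
  have hκF : algebraMap (K0 A) (FK (K0 A) (M * q)) κ ≠ 0 := (map_ne_zero _).2 hκ
  set r₀ := u / (algebraMap (K0 A) (FK (K0 A) (M * q)) κ * x₀ ^ b * G ^ n) with hr₀
  have hz : Red A ((bcK (K0 A) (M * q) (x₀ ^ b * G ^ n * r₀) : FN (M * q)) :
      LaurentSeries S44.Qb) ((Xb ^ b * Gb ^ n * rb : Fk A M) : LaurentSeries (kA A)) := by
    rw [map_mul, map_mul, map_zpow₀, map_pow]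
    exact ((red_zpow hXb hXb0' b).mul (hGb.pow n)).mul hrb
  have hZ0 : (Xb ^ b * Gb ^ n * rb : Fk A M) ≠ 0 :=
    mul_ne_zero (mul_ne_zero (zpow_ne_zero _ hXb0) (pow_ne_zero _ hGb0)) hrb0
  have hκ' : (κ : S44.Qb) ≠ 0 := fun h => hκ (Subtype.ext h)
  have e0 : x₀ ^ b * G ^ n * r₀ = (algebraMap (K0 A) (FK (K0 A) (M * q)) κ)⁻¹ * u := by
    rw [hr₀]
    have h1 : x₀ ^ b ≠ 0 := zpow_ne_zero _ hx0
    have h2 : G ^ n ≠ 0 := pow_ne_zero _ hG0
    field_simp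
  have e2 : bcK (K0 A) (M * q) (x₀ ^ b * G ^ n * r₀) =
      algebraMap S44.Qb (FN (M * q)) (κ : S44.Qb)⁻¹ * bcK (K0 A) (M * q) u := by
    rw [e0, map_mul, map_inv₀, bcK_const, map_inv₀]
  rw [e2, coe_constQ] at hz
  have h6 : IsRed A (bcK (K0 A) (M * q) u)
      ((Xb ^ b * Gb ^ n * rb : Fk A M) : LaurentSeries (kA A)) :=
    isRed_of_red hq hA (fun h => hZ0 (Subtype.ext h)) (inv_ne_zero hκ') hz
  have h7 : IsRed A (bcK (K0 A) (M * q) x₀) (Xb : LaurentSeries (kA A)) :=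
    isRed_of_red hq hA hXb0' one_ne_zero (by rwa [one_smul])
  have h8 := ord_eq_of_isRed hub h6 w
  have h9 := ord_eq_of_isRed hxb h7 w
  rw [w.ord_mul (mul_ne_zero (zpow_ne_zero _ hXb0) (pow_ne_zero _ hGb0)) hrb0,
    w.ord_mul (zpow_ne_zero _ hXb0) (pow_ne_zero _ hGb0), w.ord_zpow, hrbw,
    ← zpow_natCast, w.ord_zpow] at h8
  exact ⟨w.ord Gb, by rw [h8, h9]; ring⟩

/-- the reduction of a unit of `R₀` has order zero. -/
theorem ord_eq_zero_of_rUnit (hR : NodeRed) (hq : q.Prime) (hqM : ¬ q ∣ M)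
    (hA : A.LiesOverPrime q) {Vi₀ : ValuationSubring (FK (K0 A) (M * q))} (hVi₀ : IsGauss A Vi₀)
    {x₀ : FK (K0 A) (M * q)} {xbar : Fk A M}
    (hxb : IsRed A (bcK (K0 A) (M * q) x₀) (xbar : LaurentSeries (kA A)))
    {w : Place (kA A) (Fk A M)} {R₀ : Subring (FK (K0 A) (M * q))}
    (hw : Centred A M q w R₀) (hle : ∀ r ∈ R₀, r ∈ Vi₀) (hr : RUnit R₀ x₀) : w.ord xbar = 0 := by
  obtain ⟨rb, hrb0, hrb, hrbw⟩ := runit_Fk hR hq hqM hA hVi₀ hw hle hr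
  have h7 : IsRed A (bcK (K0 A) (M * q) x₀) (rb : LaurentSeries (kA A)) :=
    isRed_of_red hq hA (fun h => hrb0 (Subtype.ext h)) one_ne_zero (by rwa [one_smul])
  rw [ord_eq_of_isRed hxb h7 w, hrbw]

end Core

variable {q : ℕ} [NeZero q] {M' : ℕ} [NeZero M']

/-- **The model package** used by the slope formula: the regular nodal model of `X₀(4 M' q)` over
`A0 A`, with the explicit vertical valuation rings `VV (A0 A) hc 0` (Gauss valuation at `∞`) and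
`VV (A0 A) hc 1` (its Atkin-Lehner conjugate). -/
def ModelE (q M' : ℕ) [NeZero q] [NeZero M'] (hc4 : Nat.Coprime q 4) (hc : (M' * 4).Coprime q)
    (A : ValuationSubring S44.Qb) [IsDiscreteValuationRing (A0 A)] : Prop :=
  ∃ (x₀ y₀ : FK (K0 A) (M' * 4 * q)) (Smi Sm0 Nd : Set (Subring (FK (K0 A) (M' * 4 * q)))),
    NodalModel (A0 A) (q : K0 A) 1 (VV (A0 A) hc 0) (VV (A0 A) hc 1) x₀ y₀ Smi Sm0 Nd ∧
    bcK (K0 A) (M' * 4 * q) x₀ = xU q M' hc4 ∧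
    ∀ w : Place (kA A) (Fk A (M' * 4)), ∃ R₀, Centred A (M' * 4) q w R₀ ∧
      ((R₀ ∈ Nd ∧ 0 ≤ w.ord (jk A (M' * 4))) ∨
        (R₀ ∈ Smi ∧ (0 ≤ w.ord (jk A (M' * 4)) → RUnit R₀ x₀)))

/-- The model package for `q ≥ 5` (copy of `S44.Depth.Inst.nodeModelD_of`, helper104/helper97). -/
theorem modelE [IsDiscreteValuationRing (A0 A)] (hq : q.Prime) (h5 : 5 ≤ q) (hqM' : ¬ q ∣ M') (hc4 : Nat.Coprime q 4)
    (hc : (M' * 4).Coprime q) (hA : A.LiesOverPrime q) : ModelE q M' hc4 hc A := by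
  have hqM : ¬ q ∣ M' * 4 := fun h => hqM' (hc4.dvd_of_dvd_mul_right h)
  have hN : 4 * q ∣ M' * 4 * q := ⟨M', by ring⟩
  have h4 : 4 ∣ M' * 4 := Dvd.intro_left M' rfl
  obtain ⟨D, -, hDbar⟩ := S34.Nodal.Inst.Base.exists_baseData_j (M' * 4) q hq h5
  obtain ⟨γ₀, -, H⟩ := lq_inertia A hq hA hc D (beInt_j D hDbar)
  rw [xK_eq_jK (K0 A) hDbar] at H
  obtain ⟨c, C⟩ := exists_cuspQ H
  have E := etaW1 isW1_G4 hc4 h4 hc hN (A₀ := A0 A) (K := K0 A)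
  have hx := x_mem_ch₁ isW1_G4 hc4 h4 hc hN H
  have hy := y_mem_ch₁ isW1_G4 hc4 h4 hc hN H
  have hac := isAlgClosed_residueField_A0 A q hq hA
  have hfin := nodeFinD q A hq hA (M' * 4 * q) _ _ H.mChart
  have E' : Eta (algebraMap (K0 A) (FK (K0 A) (M' * 4 * q)) (q : K0 A)) (VV (A0 A) hc)
      (unitK isW1_G4 q (M' * 4 * q) hc4 hN (K0 A)) (yK isW1_G4 hc4 hN (K0 A)) := by
    rw [map_natCast]
    exact E
  refine ⟨unitK isW1_G4 q (M' * 4 * q) hc4 hN (K0 A),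
    yK isW1_G4 hc4 hN (K0 A), _, _, _, H.nodalModel hac E' hx hy C hfin,
    baseChangeMap_unitK isW1_G4 q (M' * 4 * q) hc4 hN _, fun w => ?_⟩
  obtain ⟨R, -, hdom, h1, h2⟩ := H.exists_point_depth hac E' hx hy C hfin
    (VVw (comap_A0 A) hq hA hqM w)
    (const_mem_VVw (comap_A0 A) hq hA hqM w) (VVw_le (comap_A0 A) hq hA hqM w)
    (VVw_ne (comap_A0 A) hq hA hqM w (resFieldMap_surjective hq hA))
  refine ⟨R, MD.centred hq hA hqM w hdom, ?_⟩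
  by_cases hw : 0 ≤ w.ord (jk A (M' * 4))
  · rcases h1 ((al_jK_mem_VVw_iff hq hqM hA w).2 hw) with hn | ⟨hs, hu⟩
    · exact Or.inl ⟨hn, hw⟩
    · exact Or.inr ⟨hs, fun _ => hu⟩
  · exact Or.inr ⟨h2 fun hmem => hw ((al_jK_mem_VVw_iff hq hqM hA w).1 hmem),
      fun h => absurd h hw⟩

/-- **The slope formula.** -/
theorem slope_of_model [IsDiscreteValuationRing (A0 A)] (hq : q.Prime) (hqM' : ¬ q ∣ M') (hc4 : Nat.Coprime q 4)
    (hc : (M' * 4).Coprime q) (hA : A.LiesOverPrime q) (hE : ModelE q M' hc4 hc A)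
    {n : ℕ} (hn : n ≠ 0) {u : FK (K0 A) (M' * 4 * q)} (hu : u ≠ 0) (hd : HorDiv (K0 A) n u)
    {ai a0 : ℤ}
    (hai : (VV (A0 A) hc 0).valuation u =
      (VV (A0 A) hc 0).valuation (algebraMap (K0 A) (FK (K0 A) (M' * 4 * q)) (q : K0 A)) ^ ai)
    (ha0 : (VV (A0 A) hc 1).valuation u =
      (VV (A0 A) hc 1).valuation (algebraMap (K0 A) (FK (K0 A) (M' * 4 * q)) (q : K0 A)) ^ a0)
    {ubar : Fk A (M' * 4)}
    (hub : IsRed A (bcK (K0 A) (M' * 4 * q) u) (ubar : LaurentSeries (kA A)))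
    {xbar : Fk A (M' * 4)} (hxb : IsRed A (xU q M' hc4) (xbar : LaurentSeries (kA A))) :
    (∀ w : Place (kA A) (Fk A (M' * 4)), 0 ≤ w.ord (jk A (M' * 4)) →
      (n : ℤ) ∣ w.ord ubar - (a0 - ai) * w.ord xbar) ∧
    (∀ w : Place (kA A) (Fk A (M' * 4)), w.ord (jk A (M' * 4)) < 0 → (n : ℤ) ∣ w.ord ubar) := by
  have hqM : ¬ q ∣ M' * 4 := fun h => hqM' (hc4.dvd_of_dvd_mul_right h)
  obtain ⟨x₀, y₀, Smi, Sm0, Nd, Mo, hx₀, hpt⟩ := hE
  have hG : IsGauss A (VV (A0 A) hc 0) := MD.isGauss hq hA hqM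
  rw [← hx₀] at hxb
  have key : ∀ w : Place (kA A) (Fk A (M' * 4)),
      ((n : ℤ) ∣ w.ord ubar - (a0 - ai) * w.ord xbar ∧ 0 ≤ w.ord (jk A (M' * 4))) ∨
      ((n : ℤ) ∣ w.ord ubar ∧ (0 ≤ w.ord (jk A (M' * 4)) → w.ord xbar = 0)) := by
    intro w
    obtain ⟨R₀, hw, h⟩ := hpt w
    rcases h with ⟨hNd, hj⟩ | ⟨hSm, hj⟩
    · left
      refine ⟨?_, hj⟩
      obtain ⟨b, ν, κ, G, hκ, hGv, hr, -, hrel⟩ := slope_exists_node Mo hn hu hd hai ha0 hNd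
      obtain ⟨t, ht⟩ := ord_of_shape nodeRed hq hqM hA hG Mo.x_i hxb hub hw
        (Mo.nd R₀ hNd).thri.le hκ hGv hr
      refine ⟨t - ν * w.ord xbar, ?_⟩
      have : a0 - ai = b + n * ν := by rw [hrel]; push_cast; ring
      rw [this]
      linear_combination ht
    · right
      constructor
      · obtain ⟨κ, G, hκ, hGv, hr⟩ := lf_sm Mo.unifA Mo.unifi (Mo.smi R₀ hSm) hn hu hd
        have hr' : RUnit R₀ (u / (algebraMap (K0 A) (FK (K0 A) (M' * 4 * q)) κ * x₀ ^ (0 : ℤ) *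
            G ^ n)) := by
          rwa [zpow_zero, mul_one]
        have := ord_of_shape nodeRed hq hqM hA hG Mo.x_i hxb hub hw (Mo.smi R₀ hSm).thr.le hκ hGv hr'
        simpa using this
      · intro h0
        exact ord_eq_zero_of_rUnit nodeRed hq hqM hA hG hxb hw (Mo.smi R₀ hSm).thr.le (hj h0)
  constructor
  · intro w hw
    rcases key w with ⟨h, -⟩ | ⟨h1, h2⟩
    · exact h
    · rw [h2 hw, mul_zero, sub_zero]
      exact h1
  · intro w hw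
    rcases key w with ⟨-, h⟩ | ⟨h1, -⟩
    · exact absurd h (not_le.2 hw)
    · exact h1

/-- **The slope formula** for `q ≥ 5`. -/
theorem slope [IsDiscreteValuationRing (A0 A)] (hq : q.Prime) (h5 : 5 ≤ q) (hqM' : ¬ q ∣ M') (hc4 : Nat.Coprime q 4)
    (hc : (M' * 4).Coprime q) (hA : A.LiesOverPrime q)
    {n : ℕ} (hn : n ≠ 0) {u : FK (K0 A) (M' * 4 * q)} (hu : u ≠ 0) (hd : HorDiv (K0 A) n u)
    {ai a0 : ℤ}
    (hai : (VV (A0 A) hc 0).valuation u =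
      (VV (A0 A) hc 0).valuation (algebraMap (K0 A) (FK (K0 A) (M' * 4 * q)) (q : K0 A)) ^ ai)
    (ha0 : (VV (A0 A) hc 1).valuation u =
      (VV (A0 A) hc 1).valuation (algebraMap (K0 A) (FK (K0 A) (M' * 4 * q)) (q : K0 A)) ^ a0)
    {ubar : Fk A (M' * 4)}
    (hub : IsRed A (bcK (K0 A) (M' * 4 * q) u) (ubar : LaurentSeries (kA A)))
    {xbar : Fk A (M' * 4)} (hxb : IsRed A (xU q M' hc4) (xbar : LaurentSeries (kA A))) :
    (∀ w : Place (kA A) (Fk A (M' * 4)), 0 ≤ w.ord (jk A (M' * 4)) →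
      (n : ℤ) ∣ w.ord ubar - (a0 - ai) * w.ord xbar) ∧
    (∀ w : Place (kA A) (Fk A (M' * 4)), w.ord (jk A (M' * 4)) < 0 → (n : ℤ) ∣ w.ord ubar) :=
  slope_of_model hq hqM' hc4 hc hA (modelE hq h5 hqM' hc4 hc hA) hn hu hd hai ha0 hub hxb

end Fermat.Agent.S43.E0.Slope

end
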